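import Fermat.Agent.S31.Defs

/-!
# Row S31, piece B (helper169): trace of a power from the characteristic polynomial

Exact interface statements of `Fermat/Agent/S31/Skeleton.lean` (B1, B2):

* `Fermat.Agent.S31.H169.trace_pow_of_charpoly`
* `Fermat.Agent.S31.H169.map_powTr`
-/

set_option autoImplicit false

open Polynomial

namespace Fermat.Agent.S31.H169

open Fermat.Agent.S31

/-- The trace of an endomorphism of a finite free module is minus the next-to-leading coefficient
of its characteristic polynomial. -/
theorem pieceB_trace_eq_neg_nextCoeff {R : Type*} [CommRing R] {M : Type*} [AddCommGroup M]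
    [Module R M] [Module.Free R M] [Module.Finite R M] (f : Module.End R M) :
    LinearMap.trace R M f = -f.charpoly.nextCoeff := by
  classical
  let b := Module.Free.chooseBasis R M
  rw [LinearMap.trace_eq_matrix_trace R b f, ← LinearMap.charpoly_toMatrix f b,
    Matrix.trace_eq_neg_charpoly_nextCoeff]

/-- The quadratic relation from Cayley–Hamilton. -/
theorem pieceB_sq_eq {R : Type*} [CommRing R] {M : Type*} [AddCommGroup M] [Module R M]
    [Module.Free R M] [Module.Finite R M] (f : Module.End R M)
    (a d : R) (h : f.charpoly = X ^ 2 - C a * X + C d) :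
    f ^ 2 = a • f - d • (1 : Module.End R M) := by
  have hCH := LinearMap.aeval_self_charpoly f
  rw [h] at hCH
  simp only [map_add, map_sub, map_mul, map_pow, aeval_X, aeval_C] at hCH
  rw [Algebra.algebraMap_eq_smul_one, Algebra.algebraMap_eq_smul_one, smul_mul_assoc,
    one_mul] at hCH
  rw [sub_add_eq_add_sub, sub_eq_zero] at hCH
  rw [eq_sub_iff_add_eq]
  exact hCH

/-- **B1**.  Cayley–Hamilton in rank 2. -/
theorem trace_pow_of_charpoly {R : Type*} [CommRing R] {M : Type*} [AddCommGroup M] [Module R M]
    [Module.Free R M] [Module.Finite R M] (hrk : Module.finrank R M = 2) (f : Module.End R M)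
    (a d : R) (h : f.charpoly = X ^ 2 - C a * X + C d) (j : ℕ) :
    LinearMap.trace R M (f ^ j) = powTr a d j := by
  rcases subsingleton_or_nontrivial R with hR | hnt
  · exact Subsingleton.elim _ _
  have hsq := pieceB_sq_eq f a d h
  have hrec : ∀ j : ℕ, f ^ (j + 2) = a • f ^ (j + 1) - d • f ^ j := by
    intro j
    rw [pow_add, hsq, mul_sub, mul_smul_comm, mul_smul_comm, mul_one, ← pow_succ]
  have h0 : LinearMap.trace R M (f ^ 0) = 2 := by
    rw [pow_zero, LinearMap.trace_one, hrk]
    norm_num
  have h1 : LinearMap.trace R M (f ^ 1) = a := by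
    rw [pow_one, pieceB_trace_eq_neg_nextCoeff, h]
    have hdeg : (X ^ 2 - C a * X + C d : R[X]).natDegree = 2 := by
      have e : (X ^ 2 - C a * X + C d : R[X]) = C 1 * X ^ 2 + C (-a) * X + C d := by
        rw [map_neg, map_one]; ring
      rw [e]
      exact natDegree_quadratic one_ne_zero
    rw [nextCoeff_of_natDegree_pos (by rw [hdeg]; norm_num), hdeg]
    simp [coeff_C, coeff_X_pow]
  induction j using Nat.strong_induction_on with
  | _ j ih =>
    match j, ih with
    | 0, _ => simpa [powTr] using h0
    | 1, _ => simpa [powTr] using h1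
    | (j + 2), ih =>
      rw [hrec j, map_sub, map_smul, map_smul, ih (j + 1) (by omega), ih j (by omega)]
      simp [powTr]

/-- **B2**. -/
theorem map_powTr {R R' : Type*} [CommRing R] [CommRing R'] (φ : R →+* R') (a d : R) (j : ℕ) :
    φ (powTr a d j) = powTr (φ a) (φ d) j := by
  induction j using Nat.strong_induction_on with
  | _ j ih =>
    match j, ih with
    | 0, _ => simp only [powTr, map_ofNat]
    | 1, _ => simp only [powTr]
    | (j + 2), ih =>
      simp only [powTr, map_sub, map_mul]
      rw [ih (j + 1) (by omega), ih j (by omega)]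

end Fermat.Agent.S31.H169
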